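import Mathlib
import Fermat.Prelude.Def_GaloisRep_Adic
import Fermat.Prelude.Def_EllipticCurve_FrobeniusTrace

/-!
# PROJECT J, slice J-5-S: the Galois representation `θ₁ ⊕ θ₂` of two adically continuous characters

* `IsAdicContinuousChar A θ` : for every `n` the character `θ : Gal(ℚbar/ℚ) →* A` is congruent to
  `1` modulo `𝔪 ^ n` on the fixing group of a finite extension of `ℚ`.
* `ofChars θ₁ θ₂ h₁ h₂ : GaloisRepAdic A` on `Fin 2 → A`, with `ofChars_charpoly`,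
  `ofChars_isUnramifiedAt`.
-/

set_option autoImplicit false
set_option linter.unusedSectionVars false

namespace Fermat.Agent.S30.Algebra.CharSum

open Polynomial IsLocalRing

/-- `ℚbar`. -/
abbrev Qbar := AlgebraicClosure ℚ

/-- The absolute Galois group of `ℚ`. -/
abbrev GQ := Qbar ≃ₐ[ℚ] Qbar

variable (A : Type) [CommRing A] [IsLocalRing A]

/-- Adic continuity of a character. -/
def IsAdicContinuousChar (θ : GQ →* A) : Prop :=
  ∀ n : ℕ, ∃ L : IntermediateField ℚ Qbar, FiniteDimensional ℚ L ∧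
    ∀ σ : GQ, (∀ x ∈ L, σ x = x) → θ σ - 1 ∈ maximalIdeal A ^ n

variable {A}

theorem IsAdicContinuousChar.mul {θ₁ θ₂ : GQ →* A} (h₁ : IsAdicContinuousChar A θ₁)
    (h₂ : IsAdicContinuousChar A θ₂) : IsAdicContinuousChar A (θ₁ * θ₂) := by
  intro n
  obtain ⟨L₁, hL₁, h1⟩ := h₁ n
  obtain ⟨L₂, hL₂, h2⟩ := h₂ n
  refine ⟨L₁ ⊔ L₂, IntermediateField.finiteDimensional_sup L₁ L₂, fun σ hσ => ?_⟩
  have e1 := h1 σ (fun x hx => hσ x ((le_sup_left : L₁ ≤ L₁ ⊔ L₂) hx))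
  have e2 := h2 σ (fun x hx => hσ x ((le_sup_right : L₂ ≤ L₁ ⊔ L₂) hx))
  have : (θ₁ * θ₂) σ - 1 = (θ₁ σ - 1) * θ₂ σ + (θ₂ σ - 1) := by
    rw [MonoidHom.mul_apply]; ring
  rw [this]
  exact Ideal.add_mem _ (Ideal.mul_mem_right _ _ e1) e2

/-- `σ ↦ θ σ⁻¹` is again a character (the target is commutative). -/
noncomputable def invChar (θ : GQ →* A) : GQ →* A where
  toFun σ := θ σ⁻¹
  map_one' := by rw [inv_one, map_one]
  map_mul' σ τ := by rw [mul_inv_rev, map_mul, mul_comm]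

@[simp] theorem invChar_apply (θ : GQ →* A) (σ : GQ) : invChar θ σ = θ σ⁻¹ := rfl

theorem invChar_mul_self (θ : GQ →* A) (σ : GQ) : invChar θ σ * θ σ = 1 := by
  rw [invChar_apply, ← map_mul, inv_mul_cancel, map_one]

theorem IsAdicContinuousChar.inv {θ : GQ →* A} (h : IsAdicContinuousChar A θ) :
    IsAdicContinuousChar A (invChar θ) := by
  intro n
  obtain ⟨L, hL, h1⟩ := h n
  refine ⟨L, hL, fun σ hσ => h1 σ⁻¹ (fun x hx => ?_)⟩
  have := hσ x hx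
  calc σ⁻¹ x = σ⁻¹ (σ x) := by rw [this]
    _ = x := by
      change (σ⁻¹ * σ) x = x
      rw [inv_mul_cancel]; rfl

/-- The diagonal homomorphism `σ ↦ (θ₁ σ, θ₂ σ)`. -/
noncomputable def diagHom (θ₁ θ₂ : GQ →* A) : GQ →* (Fin 2 → A) :=
  MonoidHom.pi (fun i => (![θ₁, θ₂] : Fin 2 → (GQ →* A)) i)

theorem diagHom_zero (θ₁ θ₂ : GQ →* A) (σ : GQ) : diagHom θ₁ θ₂ σ 0 = θ₁ σ := rfl

theorem diagHom_one (θ₁ θ₂ : GQ →* A) (σ : GQ) : diagHom θ₁ θ₂ σ 1 = θ₂ σ := rfl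

/-- The action `σ ↦ (v ↦ (θ₁ σ, θ₂ σ) * v)` on `Fin 2 → A`. -/
noncomputable def rhoHom (θ₁ θ₂ : GQ →* A) : GQ →* Module.End A (Fin 2 → A) :=
  ((Algebra.lmul A (Fin 2 → A) : (Fin 2 → A) →ₐ[A] Module.End A (Fin 2 → A)) :
    (Fin 2 → A) →* Module.End A (Fin 2 → A)).comp (diagHom θ₁ θ₂)

theorem rhoHom_apply (θ₁ θ₂ : GQ →* A) (σ : GQ) (v : Fin 2 → A) :
    rhoHom θ₁ θ₂ σ v = diagHom θ₁ θ₂ σ * v := rfl

theorem mem_smul_top_of_forall (J : Ideal A) (w : Fin 2 → A) (hw : ∀ i, w i ∈ J) :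
    w ∈ J • (⊤ : Submodule A (Fin 2 → A)) := by
  have : w = w 0 • (Pi.single 0 1 : Fin 2 → A) + w 1 • (Pi.single 1 1 : Fin 2 → A) := by
    ext i
    fin_cases i <;> simp
  rw [this]
  exact Submodule.add_mem _ (Submodule.smul_mem_smul (hw 0) Submodule.mem_top)
    (Submodule.smul_mem_smul (hw 1) Submodule.mem_top)

/-- The representation `θ₁ ⊕ θ₂`. -/
noncomputable def ofChars (θ₁ θ₂ : GQ →* A) (h₁ : IsAdicContinuousChar A θ₁)
    (h₂ : IsAdicContinuousChar A θ₂) : GaloisRepAdic A where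
  V := Fin 2 → A
  finrank_eq := by simp
  ρ := rhoHom θ₁ θ₂
  isAdicContinuous := by
    intro n
    obtain ⟨L₁, hL₁, h1⟩ := h₁ n
    obtain ⟨L₂, hL₂, h2⟩ := h₂ n
    refine ⟨L₁ ⊔ L₂, IntermediateField.finiteDimensional_sup L₁ L₂, fun σ hσ v => ?_⟩
    have e1 := h1 σ (fun x hx => hσ x ((le_sup_left : L₁ ≤ L₁ ⊔ L₂) hx))
    have e2 := h2 σ (fun x hx => hσ x ((le_sup_right : L₂ ≤ L₁ ⊔ L₂) hx))
    apply mem_smul_top_of_forall
    intro i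
    rw [rhoHom_apply, Pi.sub_apply, Pi.mul_apply]
    fin_cases i
    · have : diagHom θ₁ θ₂ σ 0 * v 0 - v 0 = (θ₁ σ - 1) * v 0 := by rw [diagHom_zero]; ring
      simp only [Fin.zero_eta]
      rw [this]
      exact Ideal.mul_mem_right _ _ e1
    · have : diagHom θ₁ θ₂ σ 1 * v 1 - v 1 = (θ₂ σ - 1) * v 1 := by rw [diagHom_one]; ring
      simp only [Fin.mk_one]
      rw [this]
      exact Ideal.mul_mem_right _ _ e2

theorem ofChars_rho (θ₁ θ₂ : GQ →* A) (h₁ : IsAdicContinuousChar A θ₁)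
    (h₂ : IsAdicContinuousChar A θ₂) : (ofChars θ₁ θ₂ h₁ h₂).ρ = rhoHom θ₁ θ₂ := rfl

theorem toMatrix_rhoHom (θ₁ θ₂ : GQ →* A) (σ : GQ) :
    LinearMap.toMatrix (Pi.basisFun A (Fin 2)) (Pi.basisFun A (Fin 2)) (rhoHom θ₁ θ₂ σ) =
      Matrix.diagonal (diagHom θ₁ θ₂ σ) := by
  ext i j
  rw [LinearMap.toMatrix_apply, Pi.basisFun_repr, rhoHom_apply, Pi.mul_apply, Pi.basisFun_apply,
    Matrix.diagonal_apply]
  by_cases hij : i = j
  · subst hij; simp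
  · simp [hij]

/-- The characteristic polynomial of `θ₁ ⊕ θ₂`. -/
theorem ofChars_charpoly [Nontrivial A] (θ₁ θ₂ : GQ →* A) (h₁ : IsAdicContinuousChar A θ₁)
    (h₂ : IsAdicContinuousChar A θ₂) (σ : GQ) :
    LinearMap.charpoly ((ofChars θ₁ θ₂ h₁ h₂).ρ σ) =
      X ^ 2 - C (θ₁ σ + θ₂ σ) * X + C (θ₁ σ * θ₂ σ) := by
  have h := LinearMap.charpoly_toMatrix (rhoHom θ₁ θ₂ σ) (Pi.basisFun A (Fin 2))
  rw [toMatrix_rhoHom, Matrix.charpoly_diagonal, Fin.prod_univ_two, diagHom_zero, diagHom_one] at h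
  change LinearMap.charpoly (rhoHom θ₁ θ₂ σ) = _
  rw [← h, C_add, C_mul]
  ring

/-- `θ₁ ⊕ θ₂` is unramified where both characters are. -/
theorem ofChars_isUnramifiedAt (θ₁ θ₂ : GQ →* A) (h₁ : IsAdicContinuousChar A θ₁)
    (h₂ : IsAdicContinuousChar A θ₂) (q : ℕ)
    (hu₁ : ∀ P : ValuationSubring Qbar, P.LiesOverPrime q → ∀ σ ∈ P.inertiaSubgroupIn ℚ, θ₁ σ = 1)
    (hu₂ : ∀ P : ValuationSubring Qbar, P.LiesOverPrime q → ∀ σ ∈ P.inertiaSubgroupIn ℚ, θ₂ σ = 1) :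
    (ofChars θ₁ θ₂ h₁ h₂).IsUnramifiedAt q := by
  intro P hP σ hσ
  change rhoHom θ₁ θ₂ σ = 1
  apply LinearMap.ext
  intro v
  rw [rhoHom_apply, Module.End.one_apply]
  ext i
  rw [Pi.mul_apply]
  fin_cases i
  · simp only [Fin.zero_eta]
    rw [diagHom_zero, hu₁ P hP σ hσ, one_mul]
  · simp only [Fin.mk_one]
    rw [diagHom_one, hu₂ P hP σ hσ, one_mul]

end Fermat.Agent.S30.Algebra.CharSum
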