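import Mathlib
import Fermat.Prelude.Def_EllipticCurve_FrobeniusTrace
import Fermat.Agent.CFT.Bridge.Inertia

/-!
# PROJECT J, slice J-5-C: the `p`-adic cyclotomic character with values in a complete local ring

`𝒪` a local ring, complete for its maximal ideal, with `p` in the maximal ideal.

* `exists_ringHom` : there is a ring homomorphism `ℤ_[p] →+* 𝒪`.
* `cyc p` : the `ℤ_[p]ˣ`-valued cyclotomic character of `Gal(ℚbar/ℚ)` (Mathlib's
  `cyclotomicCharacter`).
* `cyc_eq_natCast_of` : if `σ ζ = ζ ^ k` for all `p`-power roots of unity, then `cyc p σ = k`.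
* `cyc_isFrobeniusAt` : `cyc p τ = ℓ` for every Frobenius lift `τ` at a prime `ℓ ≠ p`.
* `cyc_inertia` : `cyc p σ = 1` for `σ` in an inertia group at a prime `q ≠ p`.
* `cyc_sub_one_mem` : `cyc p σ - 1 ∈ (p ^ n)` if `σ` fixes `ℚ(ζ_{p^n})`.
* `cycChar ι`, for `ι : ℤ_[p] →+* 𝒪` : the `𝒪`-valued character, with `cycChar_isFrobeniusAt`,
  `cycChar_inertia`, `cycChar_continuous` (the shape of the Prelude's
  `GaloisActionIsAdicContinuous`).
-/

set_option autoImplicit false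
set_option linter.style.haveILetI false

namespace Fermat.Agent.S30.Algebra.Cyclotomic

open IsLocalRing

/-- `ℚbar`. -/
abbrev Qbar := AlgebraicClosure ℚ

/-- The absolute Galois group of `ℚ`. -/
abbrev GQ := Qbar ≃ₐ[ℚ] Qbar

/-! ### A ring homomorphism `ℤ_[p] →+* 𝒪` -/

section RingHom

variable (p : ℕ) [Fact p.Prime] {S : Type*} [CommRing S]

/-- The ring homomorphism `ZMod N →+* S` for a ring `S` in which `N = 0`. -/
noncomputable def zmodHom (N : ℕ) (h : (N : S) = 0) : ZMod N →+* S :=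
  (Ideal.Quotient.lift (Ideal.span {(N : ℤ)}) (Int.castRingHom S) (by
    intro a ha
    obtain ⟨b, rfl⟩ := Ideal.mem_span_singleton.1 ha
    simp [h])).comp (Int.quotientSpanNatEquivZMod N).symm.toRingHom

theorem exists_ringHom (I : Ideal S) [IsAdicComplete I S] (hp : (p : S) ∈ I) :
    Nonempty (ℤ_[p] →+* S) := by
  have h0 : ∀ n : ℕ, (((p ^ n : ℕ)) : S ⧸ I ^ n) = 0 := by
    intro n
    rw [← map_natCast (Ideal.Quotient.mk (I ^ n)), Ideal.Quotient.eq_zero_iff_mem, Nat.cast_pow]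
    exact Ideal.pow_mem_pow hp n
  let g : ∀ n : ℕ, ZMod (p ^ n) →+* S ⧸ I ^ n := fun n => zmodHom (p ^ n) (h0 n)
  let f : ∀ n : ℕ, ℤ_[p] →+* S ⧸ I ^ n := fun n => (g n).comp (PadicInt.toZModPow n)
  refine ⟨IsAdicComplete.liftRingHom I f ?_⟩
  intro m n hle
  have h1 : (Ideal.Quotient.factorPow I hle).comp (g n) =
      (g m).comp (ZMod.castHom (pow_dvd_pow p hle) (ZMod (p ^ m))) := Subsingleton.elim _ _
  calc (Ideal.Quotient.factorPow I hle).comp (f n)
      = ((Ideal.Quotient.factorPow I hle).comp (g n)).comp (PadicInt.toZModPow n) := by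
        rw [RingHom.comp_assoc]
    _ = (g m).comp ((ZMod.castHom (pow_dvd_pow p hle) (ZMod (p ^ m))).comp
          (PadicInt.toZModPow n)) := by rw [h1, RingHom.comp_assoc]
    _ = f m := by rw [PadicInt.zmod_cast_comp_toZModPow m n hle]

end RingHom

/-! ### The `ℤ_[p]ˣ`-valued cyclotomic character of `Gal(ℚbar/ℚ)` -/

section Cyc

variable (p : ℕ) [Fact p.Prime]

/-- `Gal(ℚbar/ℚ) →* (ℚbar ≃+* ℚbar)`. -/
noncomputable def toRingAut : GQ →* (Qbar ≃+* Qbar) where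
  toFun σ := σ.toRingEquiv
  map_one' := rfl
  map_mul' _ _ := rfl

@[simp] theorem toRingAut_apply (σ : GQ) (x : Qbar) : toRingAut σ x = σ x := rfl

instance hasEnough (i : ℕ) : HasEnoughRootsOfUnity Qbar (p ^ i) := by
  haveI : NeZero (p ^ i) := ⟨pow_ne_zero _ (Fact.out : p.Prime).ne_zero⟩
  infer_instance

/-- The `p`-adic cyclotomic character of `Gal(ℚbar/ℚ)`. -/
noncomputable def cyc : GQ →* ℤ_[p]ˣ := (cyclotomicCharacter Qbar p).comp toRingAut

theorem cyc_spec (σ : GQ) (n : ℕ) (t : Qbar) (ht : t ^ p ^ n = 1) :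
    σ t = t ^ (((cyc p σ : ℤ_[p]ˣ) : ℤ_[p]).toZModPow n).val :=
  cyclotomicCharacter.spec p (toRingAut σ) t ht

/-- If `σ` raises every `p ^ n`-th root of unity to the `k`-th power, then `cyc p σ ≡ k` modulo
`p ^ n`. -/
theorem toZModPow_cyc_of (σ : GQ) (n k : ℕ) (h : ∀ t : Qbar, t ^ p ^ n = 1 → σ t = t ^ k) :
    ((cyc p σ : ℤ_[p]ˣ) : ℤ_[p]).toZModPow n = (k : ZMod (p ^ n)) := by
  haveI : NeZero (p ^ n) := ⟨pow_ne_zero _ (Fact.out : p.Prime).ne_zero⟩
  have h1 := cyclotomicCharacter.toZModPow (L := Qbar) p (n := n) (toRingAut σ)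
  have h2 := modularCyclotomicCharacter.unique Qbar
    (HasEnoughRootsOfUnity.natCard_rootsOfUnity Qbar (p ^ n)) (toRingAut σ)
    (c := (k : ZMod (p ^ n))) (fun t ht => by
      have ht' : (t : Qbar) ^ p ^ n = 1 := by
        have := (mem_rootsOfUnity (p ^ n) t).1 ht
        rw [← Units.val_pow_eq_pow_val, this, Units.val_one]
      rw [toRingAut_apply, h (t : Qbar) ht', ZMod.val_natCast]
      exact pow_eq_pow_mod k ht')
  change ((cyclotomicCharacter Qbar p (toRingAut σ) : ℤ_[p]ˣ) : ℤ_[p]).toZModPow n = _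
  rw [h1, h2]

/-- If `σ` raises every `p`-power root of unity to the `k`-th power, then `cyc p σ = k`. -/
theorem cyc_eq_natCast_of (σ : GQ) (k : ℕ)
    (h : ∀ (n : ℕ) (t : Qbar), t ^ p ^ n = 1 → σ t = t ^ k) :
    ((cyc p σ : ℤ_[p]ˣ) : ℤ_[p]) = k := by
  rw [← PadicInt.ext_of_toZModPow]
  intro n
  rw [toZModPow_cyc_of p σ n k (h n), map_natCast]

/-- If `σ` fixes every `p ^ n`-th root of unity, then `cyc p σ ≡ 1` modulo `p ^ n`. -/
theorem cyc_sub_one_mem (σ : GQ) (n : ℕ) (h : ∀ t : Qbar, t ^ p ^ n = 1 → σ t = t) :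
    ((cyc p σ : ℤ_[p]ˣ) : ℤ_[p]) - 1 ∈ Ideal.span {(p : ℤ_[p]) ^ n} := by
  rw [← PadicInt.ker_toZModPow, RingHom.mem_ker, map_sub, map_one,
    toZModPow_cyc_of p σ n 1 (fun t ht => by rw [h t ht, pow_one]), Nat.cast_one, sub_self]

end Cyc

/-! ### Roots of unity and valuation subrings -/

section Val

variable (p : ℕ) [Fact p.Prime]

/-- A root of unity lies in every valuation subring. -/
theorem mem_of_pow_eq_one (A : ValuationSubring Qbar) {x : Qbar} {n : ℕ}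
    (hn : n ≠ 0) (hx : x ^ n = 1) : x ∈ A := by
  rcases A.mem_or_inv_mem x with h | h
  · exact h
  · have h1 : x = (x⁻¹) ^ (n - 1) := by
      have h2 : x * x ^ (n - 1) = 1 := by
        rw [← pow_succ', Nat.sub_add_cancel (Nat.one_le_iff_ne_zero.2 hn), hx]
      rw [inv_pow]
      exact (eq_inv_of_mul_eq_one_left h2)
    rw [h1]
    exact pow_mem h _

theorem mem_nonunits_iff_residue (A : ValuationSubring Qbar) (x : Qbar) (hx : x ∈ A) :
    x ∈ A.nonunits ↔ IsLocalRing.residue A ⟨x, hx⟩ = 0 := by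
  rw [IsLocalRing.residue_eq_zero_iff]
  exact (ValuationSubring.coe_mem_nonunits_iff (a := ⟨x, hx⟩))

/-- If `A` lies over `q ≠ p`, then `p` is nonzero in the residue field of `A`. -/
theorem residue_natCast_ne_zero (A : ValuationSubring Qbar) {q : ℕ} (hq : q.Prime) (hqp : q ≠ p)
    (hA : A.LiesOverPrime q) : ((p : ℕ) : IsLocalRing.ResidueField A) ≠ 0 := by
  intro hp0
  have hq0 : ((q : ℕ) : IsLocalRing.ResidueField A) = 0 := by
    have h1 : ((q : ℕ) : Qbar) ∈ A.nonunits := hA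
    rw [mem_nonunits_iff_residue A _ (natCast_mem A q)] at h1
    have h2 : (⟨((q : ℕ) : Qbar), natCast_mem A q⟩ : A) = ((q : ℕ) : A) := rfl
    rw [h2, map_natCast] at h1
    exact h1
  have hcop : Nat.Coprime p q :=
    (Nat.coprime_primes (Fact.out : p.Prime) hq).2 (Ne.symm hqp)
  have hbez : ((p : ℤ) * Nat.gcdA p q + q * Nat.gcdB p q : ℤ) = 1 := by
    have := Nat.gcd_eq_gcd_ab p q
    rw [hcop.gcd_eq_one] at this
    exact_mod_cast this.symm
  have := congrArg (Int.cast : ℤ → IsLocalRing.ResidueField A) hbez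
  push_cast at this
  rw [hp0, hq0, zero_mul, zero_mul, add_zero] at this
  exact zero_ne_one this

/-- For `A` over `q ≠ p`, a nontrivial `p`-power root of unity is not congruent to `1` modulo the
maximal ideal of `A`. -/
theorem sub_one_not_mem_nonunits (A : ValuationSubring Qbar) {q : ℕ} (hq : q.Prime) (hqp : q ≠ p)
    (hA : A.LiesOverPrime q) {μ : Qbar} {n : ℕ} (hμ : μ ^ p ^ n = 1) (hμ1 : μ ≠ 1) :
    μ - 1 ∉ A.nonunits := by
  intro hmem
  have hN : p ^ n ≠ 0 := pow_ne_zero _ (Fact.out : p.Prime).ne_zero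
  have hμA : μ ∈ A := mem_of_pow_eq_one A hN hμ
  have h1A : μ - 1 ∈ A := A.sub_mem hμA A.one_mem
  rw [mem_nonunits_iff_residue A _ h1A] at hmem
  have hres : IsLocalRing.residue A ⟨μ, hμA⟩ = 1 := by
    have : (⟨μ - 1, h1A⟩ : A) = ⟨μ, hμA⟩ - 1 := rfl
    rw [this, map_sub, map_one, sub_eq_zero] at hmem
    exact hmem
  have hsum : ∑ i ∈ Finset.range (p ^ n), μ ^ i = 0 := by
    have h := geom_sum_mul μ (p ^ n)
    rw [hμ, sub_self] at h
    exact (mul_eq_zero.1 h).resolve_right (sub_ne_zero.2 hμ1)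
  have hsumA : ∑ i ∈ Finset.range (p ^ n), (⟨μ, hμA⟩ : A) ^ i = 0 := by
    apply Subtype.ext
    push_cast
    exact hsum
  have := congrArg (IsLocalRing.residue A) hsumA
  rw [map_sum, map_zero] at this
  simp only [map_pow, hres, one_pow, Finset.sum_const, Finset.card_range, nsmul_eq_mul,
    mul_one] at this
  rw [Nat.cast_pow] at this
  exact residue_natCast_ne_zero p A hq hqp hA (pow_eq_zero_iff'.1 this).1

/-- Two `p`-power roots of unity which are congruent modulo the maximal ideal of `A` (over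
`q ≠ p`) are equal. -/
theorem eq_of_sub_mem_nonunits (A : ValuationSubring Qbar) {q : ℕ} (hq : q.Prime) (hqp : q ≠ p)
    (hA : A.LiesOverPrime q) {x y : Qbar} {n : ℕ} (hx : x ^ p ^ n = 1) (hy : y ^ p ^ n = 1)
    (h : x - y ∈ A.nonunits) : x = y := by
  by_contra hne
  have hN : p ^ n ≠ 0 := pow_ne_zero _ (Fact.out : p.Prime).ne_zero
  have hy0 : y ≠ 0 := by
    rintro rfl
    rw [zero_pow hN] at hy
    exact zero_ne_one hy
  have hμ : (x * y⁻¹) ^ p ^ n = 1 := by rw [mul_pow, hx, inv_pow, hy, inv_one, mul_one]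
  have hμ1 : x * y⁻¹ ≠ 1 := by
    intro h1
    apply hne
    have := congrArg (· * y) h1
    simpa [mul_assoc, inv_mul_cancel₀ hy0] using this
  apply sub_one_not_mem_nonunits p A hq hqp hA hμ hμ1
  have hyinv : y⁻¹ ∈ A := mem_of_pow_eq_one A hN (by rw [inv_pow, hy, inv_one])
  have : x * y⁻¹ - 1 = (x - y) * y⁻¹ := by rw [sub_mul, mul_inv_cancel₀ hy0]
  rw [this]
  rw [A.mem_nonunits_iff] at h ⊢
  rw [← A.valuation_le_one_iff] at hyinv
  rw [map_mul]
  exact mul_lt_one_of_lt_of_le h hyinv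

end Val

/-! ### Frobenius lifts and inertia -/

section Frob

variable (p : ℕ) [Fact p.Prime]

/-- The congruence satisfied by a Frobenius lift. -/
theorem isFrobeniusAt_apply {A : ValuationSubring Qbar} {σ : GQ} {q : ℕ}
    (h : A.IsFrobeniusAt σ q) (x : Qbar) (hx : x ∈ A) : σ x - x ^ q ∈ A.nonunits := by
  obtain ⟨hσ, hF⟩ := h
  have h1 := hF (IsLocalRing.residue A ⟨x, hx⟩)
  rw [← IsLocalRing.ResidueField.residue_smul, ← map_pow, ← sub_eq_zero, ← map_sub,
    IsLocalRing.residue_eq_zero_iff] at h1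
  exact ValuationSubring.coe_mem_nonunits_iff.mpr h1

/-- `cyc p τ = ℓ` for every Frobenius lift `τ` at a prime `ℓ ≠ p`. -/
theorem cyc_isFrobeniusAt {ℓ : ℕ} (hℓ : ℓ.Prime) (hℓp : ℓ ≠ p) (A : ValuationSubring Qbar)
    (hA : A.LiesOverPrime ℓ) (τ : GQ) (hτ : A.IsFrobeniusAt τ ℓ) :
    ((cyc p τ : ℤ_[p]ˣ) : ℤ_[p]) = ℓ := by
  refine cyc_eq_natCast_of p τ ℓ (fun n t ht => ?_)
  have hN : p ^ n ≠ 0 := pow_ne_zero _ (Fact.out : p.Prime).ne_zero
  have htA : t ∈ A := mem_of_pow_eq_one A hN ht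
  refine eq_of_sub_mem_nonunits p A hℓ hℓp hA (n := n) ?_ ?_ (isFrobeniusAt_apply hτ t htA)
  · rw [← map_pow, ht, map_one]
  · rw [← pow_mul, mul_comm, pow_mul, ht, one_pow]

/-- `cyc p σ = 1` for `σ` in an inertia group at a prime `q ≠ p`. -/
theorem cyc_inertia {q : ℕ} (hq : q.Prime) (hqp : q ≠ p) (A : ValuationSubring Qbar)
    (hA : A.LiesOverPrime q) (σ : GQ) (hσ : σ ∈ A.inertiaSubgroupIn ℚ) : cyc p σ = 1 := by
  have h1 : ((cyc p σ : ℤ_[p]ˣ) : ℤ_[p]) = (1 : ℕ) := by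
    refine cyc_eq_natCast_of p σ 1 (fun n t ht => ?_)
    have hN : p ^ n ≠ 0 := pow_ne_zero _ (Fact.out : p.Prime).ne_zero
    have htA : t ∈ A := mem_of_pow_eq_one A hN ht
    rw [pow_one]
    refine eq_of_sub_mem_nonunits p A hq hqp hA (n := n) ?_ ht
      (((Fermat.Agent.CFT.Bridge.Inertia.mem_inertiaSubgroupIn_iff ℚ).1 hσ).2 t htA)
    rw [← map_pow, ht, map_one]
  apply Units.ext
  rw [h1, Nat.cast_one, Units.val_one]

/-- `cyc p σ ≡ 1` modulo `p ^ n` for `σ` fixing `ℚ(ζ_{p^n})`. -/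
theorem exists_field_cyc_sub_one_mem (n : ℕ) :
    ∃ L : IntermediateField ℚ Qbar, FiniteDimensional ℚ L ∧
      ∀ σ : GQ, (∀ x ∈ L, σ x = x) →
        ((cyc p σ : ℤ_[p]ˣ) : ℤ_[p]) - 1 ∈ Ideal.span {(p : ℤ_[p]) ^ n} := by
  haveI : NeZero (p ^ n) := ⟨pow_ne_zero _ (Fact.out : p.Prime).ne_zero⟩
  obtain ⟨ζ, hζ⟩ := HasEnoughRootsOfUnity.exists_primitiveRoot Qbar (p ^ n)
  have halg : Algebra.IsAlgebraic ℚ Qbar := AlgebraicClosure.isAlgebraic ℚ
  have hint : IsIntegral ℚ ζ := (halg.isAlgebraic ζ).isIntegral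
  refine ⟨IntermediateField.adjoin ℚ {ζ}, IntermediateField.adjoin.finiteDimensional hint,
    fun σ hσ => cyc_sub_one_mem p σ n (fun t ht => ?_)⟩
  obtain ⟨i, -, rfl⟩ := hζ.eq_pow_of_pow_eq_one ht
  rw [map_pow, hσ ζ (IntermediateField.mem_adjoin_simple_self ℚ ζ)]

end Frob

/-! ### The character with values in a complete local ring -/

section CycChar

variable (p : ℕ) [Fact p.Prime] {S : Type*} [CommRing S] (ι : ℤ_[p] →+* S)

/-- The cyclotomic character with values in a ring `S` receiving `ℤ_[p]`. -/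
noncomputable def cycChar : GQ →* S :=
  (ι : ℤ_[p] →* S).comp ((Units.coeHom ℤ_[p]).comp (cyc p))

theorem cycChar_apply (σ : GQ) : cycChar p ι σ = ι ((cyc p σ : ℤ_[p]ˣ) : ℤ_[p]) := rfl

theorem cycChar_isFrobeniusAt {ℓ : ℕ} (hℓ : ℓ.Prime) (hℓp : ℓ ≠ p) (A : ValuationSubring Qbar)
    (hA : A.LiesOverPrime ℓ) (τ : GQ) (hτ : A.IsFrobeniusAt τ ℓ) :
    cycChar p ι τ = (ℓ : S) := by
  rw [cycChar_apply, cyc_isFrobeniusAt p hℓ hℓp A hA τ hτ, map_natCast]

theorem cycChar_inertia {q : ℕ} (hq : q.Prime) (hqp : q ≠ p) (A : ValuationSubring Qbar)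
    (hA : A.LiesOverPrime q) (σ : GQ) (hσ : σ ∈ A.inertiaSubgroupIn ℚ) :
    cycChar p ι σ = 1 := by
  rw [cycChar_apply, cyc_inertia p hq hqp A hA σ hσ, Units.val_one, map_one]

/-- Adic continuity of the cyclotomic character. -/
theorem cycChar_continuous (I : Ideal S) (hp : (p : S) ∈ I) (n : ℕ) :
    ∃ L : IntermediateField ℚ Qbar, FiniteDimensional ℚ L ∧
      ∀ σ : GQ, (∀ x ∈ L, σ x = x) → cycChar p ι σ - 1 ∈ I ^ n := by
  obtain ⟨L, hL, h⟩ := exists_field_cyc_sub_one_mem p n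
  refine ⟨L, hL, fun σ hσ => ?_⟩
  obtain ⟨y, hy⟩ := Ideal.mem_span_singleton.1 (h σ hσ)
  have : cycChar p ι σ - 1 = (p : S) ^ n * ι y := by
    rw [cycChar_apply, ← map_one ι, ← map_sub, hy, map_mul, map_pow, map_natCast]
  rw [this]
  exact Ideal.mul_mem_right _ _ (Ideal.pow_mem_pow hp n)

end CycChar

end Fermat.Agent.S30.Algebra.Cyclotomic
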