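import Mathlib

/-!
# PROJECT J, slice J-5-E: the determinant lemma (step (E) of the S30 blueprint)

Everything here is abstract linear algebra / group theory; no Galois theory enters.

* `trace_det_of_relation` (E1, matrices): over a domain, a `2 × 2` matrix `M` with
  `M * M - a • M + b • 1 = 0` which is not of the form `c • 1` has trace `a` and determinant `b`.
* `charpoly_of_relation_of_det` (E1 + E3): if moreover `det M = b ≠ 0` is known, then
  `M.charpoly = X ^ 2 - C a * X + C b` whether `M` is scalar or not.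
* `det_eq_of_density` (E2, matrices): `ρ : G →* Matrix (Fin 2) (Fin 2) R`, `ε : G →* R`, `T ⊆ G` a
  set on which `det ρ = ε` holds at the non-scalar elements, `U n ⊆ G` sets on which `ρ` and `ε` are
  trivial modulo `I ^ n`, the DENSITY hypothesis (every `σ` has, for every `n`, a `τ ∈ T` with
  `τ ∈ σ ^ k * U n` and `σ ∈ (σ ^ k) ^ j * U n`), `R` `I`-adically separated, and `ρ` not
  scalar-valued.  Then `det ρ = ε` on all of `G`.
* `End.*` : the same three statements for endomorphisms of a free module of rank two.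
-/

set_option autoImplicit false

namespace Fermat.Agent.S30.Algebra.DetLemma

open Polynomial Matrix

/-! ### (E1), (E3): `2 × 2` matrices over a domain -/

section Mat

variable {R : Type*} [CommRing R]

/-- A matrix is scalar if it is of the form `c • 1`. -/
def IsScalar (M : Matrix (Fin 2) (Fin 2) R) : Prop := ∃ c : R, M = c • (1 : Matrix (Fin 2) (Fin 2) R)

theorem isScalar_iff (M : Matrix (Fin 2) (Fin 2) R) :
    IsScalar M ↔ M 0 1 = 0 ∧ M 1 0 = 0 ∧ M 0 0 = M 1 1 := by
  constructor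
  · rintro ⟨c, rfl⟩
    simp
  · rintro ⟨h1, h2, h3⟩
    refine ⟨M 0 0, ?_⟩
    ext i j
    fin_cases i <;> fin_cases j <;> simp [h1, h2, h3]

theorem relation_entries (M : Matrix (Fin 2) (Fin 2) R) (a b : R)
    (h : M * M - a • M + b • (1 : Matrix (Fin 2) (Fin 2) R) = 0) :
    M 0 1 * (M 0 0 + M 1 1 - a) = 0 ∧ M 1 0 * (M 0 0 + M 1 1 - a) = 0 ∧
      (M 0 0 - M 1 1) * (M 0 0 + M 1 1 - a) = 0 ∧
      M 0 0 * M 0 0 + M 0 1 * M 1 0 - a * M 0 0 + b = 0 := by
  have h00 := congrFun (congrFun h 0) 0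
  have h01 := congrFun (congrFun h 0) 1
  have h10 := congrFun (congrFun h 1) 0
  have h11 := congrFun (congrFun h 1) 1
  simp [Matrix.mul_apply, Fin.sum_univ_two] at h00 h01 h10 h11
  refine ⟨?_, ?_, ?_, ?_⟩
  · linear_combination h01
  · linear_combination h10
  · linear_combination h00 - h11
  · linear_combination h00

variable [IsDomain R]

/-- **(E1).**  A non-scalar `2 × 2` matrix over a domain killed by `X ^ 2 - a X + b` has trace `a`
and determinant `b`. -/
theorem trace_det_of_relation (M : Matrix (Fin 2) (Fin 2) R) (a b : R)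
    (h : M * M - a • M + b • (1 : Matrix (Fin 2) (Fin 2) R) = 0) (hns : ¬ IsScalar M) :
    M.trace = a ∧ M.det = b := by
  obtain ⟨h1, h2, h3, h4⟩ := relation_entries M a b h
  have ht : M 0 0 + M 1 1 - a = 0 := by
    by_contra hne
    apply hns
    rw [isScalar_iff]
    refine ⟨?_, ?_, ?_⟩
    · exact (mul_eq_zero.1 h1).resolve_right hne
    · exact (mul_eq_zero.1 h2).resolve_right hne
    · exact sub_eq_zero.1 ((mul_eq_zero.1 h3).resolve_right hne)
  have ha : a = M 0 0 + M 1 1 := by linear_combination -ht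
  refine ⟨by rw [Matrix.trace_fin_two, ha], ?_⟩
  rw [Matrix.det_fin_two]
  rw [ha] at h4
  linear_combination -h4

/-- **(E1) + (E3).**  If `det M = b ≠ 0` is known, the characteristic polynomial is
`X ^ 2 - a X + b`, also for scalar `M`. -/
theorem charpoly_of_relation_of_det (M : Matrix (Fin 2) (Fin 2) R) (a b : R)
    (h : M * M - a • M + b • (1 : Matrix (Fin 2) (Fin 2) R) = 0) (hdet : M.det = b)
    (hb : b ≠ 0) : M.charpoly = X ^ 2 - C a * X + C b := by
  rw [Matrix.charpoly_fin_two, hdet]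
  by_cases hs : IsScalar M
  · obtain ⟨c, rfl⟩ := hs
    obtain ⟨-, -, -, h4⟩ := relation_entries _ a b h
    have hd : c * c = b := by
      rw [← hdet, Matrix.det_fin_two]; simp
    simp only [Matrix.smul_apply, Matrix.one_apply_eq, smul_eq_mul, mul_one, ne_eq,
      zero_ne_one, not_false_eq_true, Matrix.one_apply_ne, mul_zero] at h4
    have hc : c ≠ 0 := by
      rintro rfl
      exact hb (by rw [← hd, mul_zero])
    have h5 : c * (2 * c - a) = 0 := by linear_combination h4 + hd
    have h6 : a = 2 * c := by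
      have := (mul_eq_zero.1 h5).resolve_left hc
      linear_combination -this
    have : (c • (1 : Matrix (Fin 2) (Fin 2) R)).trace = a := by
      rw [Matrix.trace_fin_two, h6]; simp; ring
    rw [this]
  · rw [(trace_det_of_relation M a b h hs).1]

end Mat

/-! ### (E2): density implies `det ρ = ε` -/

section Density

variable {G : Type*} [Group G] {R : Type*} [CommRing R]

theorem IsScalar.pow {M : Matrix (Fin 2) (Fin 2) R} (h : IsScalar M) (k : ℕ) : IsScalar (M ^ k) := by
  obtain ⟨c, rfl⟩ := h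
  exact ⟨c ^ k, by rw [_root_.smul_pow, one_pow]⟩

/-- Reduction of a matrix-valued monoid homomorphism modulo an ideal. -/
noncomputable def redHom (J : Ideal R) (ρ : G →* Matrix (Fin 2) (Fin 2) R) :
    G →* Matrix (Fin 2) (Fin 2) (R ⧸ J) :=
  (RingHom.mapMatrix (Ideal.Quotient.mk J) :
    Matrix (Fin 2) (Fin 2) R →+* Matrix (Fin 2) (Fin 2) (R ⧸ J)).toMonoidHom.comp ρ

theorem redHom_apply (J : Ideal R) (ρ : G →* Matrix (Fin 2) (Fin 2) R) (g : G) (i j : Fin 2) :
    redHom J ρ g i j = Ideal.Quotient.mk J (ρ g i j) := rfl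

theorem det_redHom (J : Ideal R) (ρ : G →* Matrix (Fin 2) (Fin 2) R) (g : G) :
    (redHom J ρ g).det = Ideal.Quotient.mk J (ρ g).det := by
  rw [Matrix.det_fin_two, Matrix.det_fin_two]
  simp only [redHom_apply, map_sub, map_mul]

theorem isScalar_redHom_of (J : Ideal R) (ρ : G →* Matrix (Fin 2) (Fin 2) R) (g : G)
    (h : IsScalar (ρ g)) : IsScalar (redHom J ρ g) := by
  rw [isScalar_iff] at h ⊢
  obtain ⟨h1, h2, h3⟩ := h
  simp only [redHom_apply, h1, h2, h3, map_zero, and_self]

theorem redHom_eq_one_of (J : Ideal R) (ρ : G →* Matrix (Fin 2) (Fin 2) R) (u : G)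
    (hu : ∀ i j, (ρ u - 1) i j ∈ J) : redHom J ρ u = 1 := by
  ext i j
  rw [redHom_apply]
  have := hu i j
  rw [Matrix.sub_apply, ← Ideal.Quotient.eq] at this
  rw [this]
  by_cases hij : i = j
  · subst hij; simp
  · simp [hij]

/-- If `ρ g` is not scalar, then it is not scalar modulo `I ^ n` for all large `n`
(`R` being `I`-adically separated). -/
theorem exists_not_isScalar_redHom (I : Ideal R) (hI : ∀ x : R, (∀ n, x ∈ I ^ n) → x = 0)
    (ρ : G →* Matrix (Fin 2) (Fin 2) R) (g : G) (hg : ¬ IsScalar (ρ g)) :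
    ∃ n₀, ∀ n, n₀ ≤ n → ¬ IsScalar (redHom (I ^ n) ρ g) := by
  have key : ∀ x : R, x ≠ 0 → ∃ n₀, ∀ n, n₀ ≤ n → x ∉ I ^ n := by
    intro x hx
    by_contra hcon
    push Not at hcon
    apply hx
    apply hI
    intro n
    obtain ⟨m, hm, hxm⟩ := hcon n
    exact Ideal.pow_le_pow_right hm hxm
  have hcase : ∃ x : R, x ≠ 0 ∧ ∀ n, IsScalar (redHom (I ^ n) ρ g) → x ∈ I ^ n := by
    rw [isScalar_iff] at hg
    by_cases h1 : ρ g 0 1 = 0
    · by_cases h2 : ρ g 1 0 = 0
      · have h3 : ρ g 0 0 - ρ g 1 1 ≠ 0 := fun h => hg ⟨h1, h2, sub_eq_zero.1 h⟩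
        refine ⟨_, h3, fun n hn => ?_⟩
        rw [isScalar_iff] at hn
        have := hn.2.2
        rwa [redHom_apply, redHom_apply, Ideal.Quotient.eq] at this
      · refine ⟨_, h2, fun n hn => ?_⟩
        rw [isScalar_iff] at hn
        have := hn.2.1
        rwa [redHom_apply, Ideal.Quotient.eq_zero_iff_mem] at this
    · refine ⟨_, h1, fun n hn => ?_⟩
      rw [isScalar_iff] at hn
      have := hn.1
      rwa [redHom_apply, Ideal.Quotient.eq_zero_iff_mem] at this
  obtain ⟨x, hx, hxn⟩ := hcase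
  obtain ⟨n₀, hn₀⟩ := key x hx
  exact ⟨n₀, fun n hn hs => hn₀ n hn (hxn n hs)⟩

/-- **(E2), matrix form.**  Density implies `det ρ = ε` as soon as `ρ` is not scalar-valued. -/
theorem det_eq_of_density (I : Ideal R) (hI : ∀ x : R, (∀ n, x ∈ I ^ n) → x = 0)
    (ρ : G →* Matrix (Fin 2) (Fin 2) R) (ε : G →* R)
    (T : Set G) (hT : ∀ τ ∈ T, ¬ IsScalar (ρ τ) → (ρ τ).det = ε τ)
    (U : ℕ → Set G)
    (hUρ : ∀ n, ∀ u ∈ U n, ∀ i j, (ρ u - 1) i j ∈ I ^ n)
    (hUε : ∀ n, ∀ u ∈ U n, ε u - 1 ∈ I ^ n)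
    (hdens : ∀ n σ, ∃ τ ∈ T, ∃ k j : ℕ, ∃ u₁ ∈ U n, ∃ u₂ ∈ U n,
      τ = σ ^ k * u₁ ∧ σ = (σ ^ k) ^ j * u₂)
    (hns : ∃ σ₀, ¬ IsScalar (ρ σ₀)) (σ : G) : (ρ σ).det = ε σ := by
  obtain ⟨σ₀, hσ₀⟩ := hns
  obtain ⟨n₀, hn₀⟩ := exists_not_isScalar_redHom I hI ρ σ₀ hσ₀
  -- the statement modulo `I ^ n`, `n₀ ≤ n`
  have main : ∀ n, n₀ ≤ n → ∀ g : G,
      Ideal.Quotient.mk (I ^ n) (ρ g).det = Ideal.Quotient.mk (I ^ n) (ε g) := by
    intro n hn
    set r := redHom (I ^ n) ρ with hr
    set e : G →* R ⧸ I ^ n := (Ideal.Quotient.mk (I ^ n)).toMonoidHom.comp ε with he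
    set d : G →* R ⧸ I ^ n := Matrix.detMonoidHom.comp r with hd
    have hd_apply : ∀ g, d g = Ideal.Quotient.mk (I ^ n) (ρ g).det := fun g => det_redHom _ ρ g
    have he_apply : ∀ g, e g = Ideal.Quotient.mk (I ^ n) (ε g) := fun g => rfl
    have hru : ∀ u ∈ U n, r u = 1 := fun u hu => redHom_eq_one_of _ ρ u (hUρ n u hu)
    have hdu : ∀ u ∈ U n, d u = 1 := fun u hu => by
      rw [hd, MonoidHom.comp_apply, hru u hu, map_one]
    have heu : ∀ u ∈ U n, e u = 1 := fun u hu => by
      rw [he_apply, ← map_one (Ideal.Quotient.mk (I ^ n)), Ideal.Quotient.eq]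
      exact hUε n u hu
    -- Claim 1: non-scalar elements
    have claim1 : ∀ g, ¬ IsScalar (r g) → d g = e g := by
      intro g hg
      obtain ⟨τ, hτT, k, j, u₁, hu₁, u₂, hu₂, hτ, hgj⟩ := hdens n g
      have hrτ : r τ = r (g ^ k) := by rw [hτ, map_mul, hru u₁ hu₁, mul_one]
      have hrg : r g = r (g ^ k) ^ j := by
        conv_lhs => rw [hgj]
        rw [map_mul, hru u₂ hu₂, mul_one, map_pow]
      have hτns : ¬ IsScalar (r τ) := by
        intro hs
        rw [hrτ] at hs
        apply hg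
        rw [hrg]
        exact hs.pow j
      have hτns' : ¬ IsScalar (ρ τ) := fun hs => hτns (isScalar_redHom_of _ ρ τ hs)
      have h1 : d τ = e τ := by rw [hd_apply, he_apply, hT τ hτT hτns']
      have h2 : d (g ^ k) = e (g ^ k) := by
        have hdτ : d τ = d (g ^ k) := by rw [hτ, map_mul, hdu u₁ hu₁, mul_one]
        have heτ : e τ = e (g ^ k) := by rw [hτ, map_mul, heu u₁ hu₁, mul_one]
        rw [← hdτ, ← heτ, h1]
      have hdg : d g = d (g ^ k) ^ j := by
        conv_lhs => rw [hgj]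
        rw [map_mul, hdu u₂ hu₂, mul_one, map_pow]
      have heg : e g = e (g ^ k) ^ j := by
        conv_lhs => rw [hgj]
        rw [map_mul, heu u₂ hu₂, mul_one, map_pow]
      rw [hdg, heg, h2]
    have h0 : d σ₀ = e σ₀ := claim1 σ₀ (hn₀ n hn)
    intro g
    rw [← hd_apply, ← he_apply]
    by_cases hg : IsScalar (r g)
    · have hgσ : ¬ IsScalar (r (g * σ₀)) := by
        rintro ⟨c', hc'⟩
        obtain ⟨c, hc⟩ := hg
        apply hn₀ n hn
        have h1 : r g * r g⁻¹ = 1 := by rw [← map_mul, mul_inv_cancel, map_one]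
        have h2 : c * (r g⁻¹ 0 0) = 1 := by
          have := congrFun (congrFun h1 0) 0
          rw [hc] at this
          simpa using this
        have h3 : c • r σ₀ = c' • (1 : Matrix (Fin 2) (Fin 2) (R ⧸ I ^ n)) := by
          rw [← hc', map_mul, hc, smul_mul_assoc, one_mul]
        refine ⟨r g⁻¹ 0 0 * c', ?_⟩
        calc r σ₀ = (r g⁻¹ 0 0 * c) • r σ₀ := by rw [mul_comm, h2, one_smul]
          _ = r g⁻¹ 0 0 • (c • r σ₀) := by rw [mul_smul]
          _ = (r g⁻¹ 0 0 * c') • (1 : Matrix (Fin 2) (Fin 2) (R ⧸ I ^ n)) := by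
            rw [h3, mul_smul]
      have h1 : d (g * σ₀) = e (g * σ₀) := claim1 _ hgσ
      rw [map_mul, map_mul, ← h0] at h1
      have hunit : IsUnit (d σ₀) := by
        refine IsUnit.of_mul_eq_one (d σ₀⁻¹) ?_
        rw [← map_mul, mul_inv_cancel, map_one]
      exact hunit.mul_left_injective h1
    · exact claim1 g hg
  have hmem : ∀ n, (ρ σ).det - ε σ ∈ I ^ n := by
    intro n
    have := main (max n n₀) (le_max_right _ _) σ
    rw [Ideal.Quotient.eq] at this
    exact Ideal.pow_le_pow_right (le_max_left _ _) this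
  exact sub_eq_zero.1 (hI _ hmem)

end Density

/-! ### The same statements for endomorphisms of a free module of rank two -/

namespace End

variable {R : Type*} [CommRing R] {V : Type*} [AddCommGroup V] [Module R V]

/-- An endomorphism is scalar if it is of the form `c • 1`. -/
def IsScalar (F : Module.End R V) : Prop := ∃ c : R, F = c • (1 : Module.End R V)

theorem isScalar_toMatrix_iff (b : Module.Basis (Fin 2) R V) (F : Module.End R V) :
    DetLemma.IsScalar (LinearMap.toMatrix b b F) ↔ IsScalar F := by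
  constructor
  · rintro ⟨c, hc⟩
    refine ⟨c, ?_⟩
    apply (LinearMap.toMatrix b b).injective
    rw [hc, map_smul, LinearMap.toMatrix_one]
  · rintro ⟨c, rfl⟩
    exact ⟨c, by rw [map_smul, LinearMap.toMatrix_one]⟩

variable [IsDomain R]

/-- **(E1) + (E3)** for endomorphisms. -/
theorem charpoly_of_relation_of_det [Module.Free R V] [Module.Finite R V]
    (b : Module.Basis (Fin 2) R V) (F : Module.End R V) (a c : R)
    (h : F * F - a • F + c • (1 : Module.End R V) = 0) (hdet : LinearMap.det F = c)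
    (hc : c ≠ 0) : LinearMap.charpoly F = X ^ 2 - C a * X + C c := by
  rw [← LinearMap.charpoly_toMatrix F b]
  apply DetLemma.charpoly_of_relation_of_det
  · have := congrArg (LinearMap.toMatrix b b) h
    rw [map_zero, map_add, map_sub, map_smul, map_smul, LinearMap.toMatrix_one] at this
    rw [← this, Module.End.mul_eq_comp, LinearMap.toMatrix_comp b b b]
  · rw [LinearMap.det_toMatrix, hdet]
  · exact hc

/-- **(E1)** for endomorphisms. -/
theorem det_of_relation (b : Module.Basis (Fin 2) R V) (F : Module.End R V) (a c : R)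
    (h : F * F - a • F + c • (1 : Module.End R V) = 0) (hns : ¬ IsScalar F) :
    LinearMap.det F = c := by
  rw [← LinearMap.det_toMatrix b]
  refine (DetLemma.trace_det_of_relation (LinearMap.toMatrix b b F) a c ?_ ?_).2
  · have := congrArg (LinearMap.toMatrix b b) h
    rw [map_zero, map_add, map_sub, map_smul, map_smul, LinearMap.toMatrix_one] at this
    rw [← this, Module.End.mul_eq_comp, LinearMap.toMatrix_comp b b b]
  · rwa [isScalar_toMatrix_iff]

/-- Coordinates of an element of `J • ⊤` lie in `J`. -/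
theorem repr_mem_of_mem_smul_top {R : Type*} [CommRing R] {V : Type*} [AddCommGroup V] [Module R V]
    {ι : Type*} (b : Module.Basis ι R V) (J : Ideal R) (w : V)
    (hw : w ∈ J • (⊤ : Submodule R V)) (i : ι) : b.repr w i ∈ J := by
  refine Submodule.smul_induction_on (p := fun w => b.repr w i ∈ J) hw ?_ ?_
  · intro a ha v _
    rw [map_smul, Finsupp.smul_apply, smul_eq_mul]
    exact J.mul_mem_right _ ha
  · intro x y hx hy
    rw [map_add, Finsupp.add_apply]
    exact J.add_mem hx hy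

/-- **(E2)** for endomorphisms of a free module of rank two: density implies `det ρ = ε` as soon as
`ρ` is not scalar-valued.  The hypothesis `hUρ` is in the shape of the Prelude's
`GaloisActionIsAdicContinuous`. -/
theorem det_eq_of_density {G : Type*} [Group G] {R : Type*} [CommRing R] {V : Type*}
    [AddCommGroup V] [Module R V] (b : Module.Basis (Fin 2) R V)
    (I : Ideal R) (hI : ∀ x : R, (∀ n, x ∈ I ^ n) → x = 0)
    (ρ : G →* Module.End R V) (ε : G →* R)
    (T : Set G) (hT : ∀ τ ∈ T, ¬ IsScalar (ρ τ) → LinearMap.det (ρ τ) = ε τ)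
    (U : ℕ → Set G)
    (hUρ : ∀ n, ∀ u ∈ U n, ∀ v : V, ρ u v - v ∈ (I ^ n) • (⊤ : Submodule R V))
    (hUε : ∀ n, ∀ u ∈ U n, ε u - 1 ∈ I ^ n)
    (hdens : ∀ n σ, ∃ τ ∈ T, ∃ k j : ℕ, ∃ u₁ ∈ U n, ∃ u₂ ∈ U n,
      τ = σ ^ k * u₁ ∧ σ = (σ ^ k) ^ j * u₂)
    (hns : ∃ σ₀, ¬ IsScalar (ρ σ₀)) (σ : G) : LinearMap.det (ρ σ) = ε σ := by
  set Mρ : G →* Matrix (Fin 2) (Fin 2) R :=
    (MonoidHomClass.toMonoidHom (LinearMap.toMatrixAlgEquiv b)).comp ρ with hMρ
  have hM : ∀ g, Mρ g = LinearMap.toMatrix b b (ρ g) := fun g => rfl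
  rw [← LinearMap.det_toMatrix b, ← hM]
  refine DetLemma.det_eq_of_density I hI Mρ ε T ?_ U ?_ hUε hdens ?_ σ
  · intro τ hτ hs
    rw [hM, LinearMap.det_toMatrix]
    refine hT τ hτ ?_
    rwa [hM, isScalar_toMatrix_iff] at hs
  · intro n u hu i j
    have h1 : (Mρ u - 1) i j = b.repr (ρ u (b j) - b j) i := by
      rw [Matrix.sub_apply, hM, LinearMap.toMatrix_apply, map_sub, Finsupp.sub_apply,
        Module.Basis.repr_self, Matrix.one_apply, Finsupp.single_apply]
      simp only [eq_comm]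
    rw [h1]
    exact repr_mem_of_mem_smul_top b _ _ (hUρ n u hu (b j)) i
  · obtain ⟨σ₀, hσ₀⟩ := hns
    refine ⟨σ₀, ?_⟩
    rwa [hM, isScalar_toMatrix_iff]

end End

end Fermat.Agent.S30.Algebra.DetLemma
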