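import Mathlib
import Fermat.Prelude.Def_GaloisRep_Adic
import Fermat.Prelude.Def_EllipticCurve_FrobeniusTrace
import Fermat.Agent.S30.Algebra.DetLemma
import Fermat.Agent.S30.Algebra.Cyclotomic
import Fermat.Agent.S30.Algebra.CharSum

/-!
# PROJECT J, slice J-5-E (final packaging): from the Frobenius quadratic relation to the
characteristic polynomial

`𝒪` a complete local domain of characteristic zero with `p` in its maximal ideal,
`ρ : GaloisRepAdic 𝒪` such that every Frobenius lift `τ` at a prime `ℓ ∉ Σ` satisfies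
`ρ(τ)² - a_ℓ ρ(τ) + ℓ = 0` (`FrobRelation`), unramified at the primes `q` with `Pu q`
(`Pu q → q ≠ p`).  Assume the Frobenius density statement `Density Σ` (= (F2) of K-1e).  Then there
is `ρ' : GaloisRepAdic 𝒪` with `charpoly ρ'(τ) = X² - a_ℓ X + ℓ` for ALL Frobenius lifts at
`ℓ ∉ Σ` (`FrobCharpoly`), unramified at the same primes : `exists_rep_charpoly`.

If `ρ` is not scalar-valued, `ρ' = ρ` and `det ρ` is the cyclotomic character
(`det_eq_cycChar`); if `ρ = θ` is scalar-valued, `ρ' = θ ⊕ ε θ⁻¹`.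
-/

set_option autoImplicit false
set_option linter.unusedSectionVars false

namespace Fermat.Agent.S30.Algebra.DetGalois

open Polynomial IsLocalRing

/-- `ℚbar`. -/
abbrev Qbar := AlgebraicClosure ℚ

/-- The absolute Galois group of `ℚ`. -/
abbrev GQ := Qbar ≃ₐ[ℚ] Qbar

/-- The Frobenius density statement, (F2) of K-1e, for the finite set of primes `Sg`. -/
def Density (Sg : Finset ℕ) : Prop :=
  ∀ (L : IntermediateField ℚ Qbar), FiniteDimensional ℚ L → ∀ σ : GQ,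
    ∃ ℓ : ℕ, ℓ.Prime ∧ ℓ ∉ Sg ∧ ∃ (A : ValuationSubring Qbar) (τ : GQ) (k j : ℕ),
      A.LiesOverPrime ℓ ∧ A.IsFrobeniusAt τ ℓ ∧ (∀ x ∈ L, τ x = (σ ^ k) x) ∧
        (∀ x ∈ L, ((σ ^ k) ^ j) x = σ x)

variable {𝒪 : Type} [CommRing 𝒪] [IsLocalRing 𝒪]

/-- The quadratic relation at all Frobenius lifts outside `Sg`. -/
def FrobRelation (ρ : GaloisRepAdic 𝒪) (Sg : Finset ℕ) (a : ℕ → 𝒪) : Prop :=
  ∀ ℓ : ℕ, ℓ.Prime → ℓ ∉ Sg → ∀ A : ValuationSubring Qbar, A.LiesOverPrime ℓ →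
    ∀ σ : GQ, A.IsFrobeniusAt σ ℓ →
      ρ.ρ σ * ρ.ρ σ - a ℓ • ρ.ρ σ + (ℓ : 𝒪) • (1 : Module.End 𝒪 ρ.V) = 0

/-- The characteristic polynomial at all Frobenius lifts outside `Sg`. -/
def FrobCharpoly (ρ : GaloisRepAdic 𝒪) (Sg : Finset ℕ) (a : ℕ → 𝒪) : Prop :=
  ∀ ℓ : ℕ, ℓ.Prime → ℓ ∉ Sg → ∀ A : ValuationSubring Qbar, A.LiesOverPrime ℓ →
    ∀ σ : GQ, A.IsFrobeniusAt σ ℓ →
      LinearMap.charpoly (ρ.ρ σ) = X ^ 2 - C (a ℓ) * X + C ((ℓ : 𝒪))

/-- The set of Frobenius lifts at primes outside `Sg`. -/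
def frobSet (Sg : Finset ℕ) : Set GQ :=
  {τ | ∃ ℓ : ℕ, ℓ.Prime ∧ ℓ ∉ Sg ∧ ∃ A : ValuationSubring Qbar,
    A.LiesOverPrime ℓ ∧ A.IsFrobeniusAt τ ℓ}

theorem inv_mul_apply_eq (g h : GQ) (x : Qbar) (hx : h x = g x) : (g⁻¹ * h) x = x := by
  rw [AlgEquiv.mul_apply, hx]
  change (g⁻¹ * g) x = x
  rw [inv_mul_cancel]
  rfl

theorem smul_one_injective (V : Type) [AddCommGroup V] [Module 𝒪 V]
    (b : Module.Basis (Fin 2) 𝒪 V) {c c' : 𝒪}
    (h : c • (1 : Module.End 𝒪 V) = c' • (1 : Module.End 𝒪 V)) : c = c' := by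
  have h1 := congrArg (fun F : Module.End 𝒪 V => b.repr (F (b 0)) 0) h
  simpa using h1

section Main

variable (p : ℕ) [Fact p.Prime] [IsDomain 𝒪] [IsAdicComplete (maximalIdeal 𝒪) 𝒪] [CharZero 𝒪]

theorem separated (x : 𝒪) (hx : ∀ n, x ∈ maximalIdeal 𝒪 ^ n) : x = 0 := by
  have hH : IsHausdorff (maximalIdeal 𝒪) 𝒪 := inferInstance
  apply hH.haus'
  intro n
  rw [SModEq.zero, smul_eq_mul, Ideal.mul_top]
  exact hx n

/-- **Non-scalar case**: `det ρ` is the cyclotomic character. -/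
theorem det_eq_cycChar (hp : (p : 𝒪) ∈ maximalIdeal 𝒪) (ι : ℤ_[p] →+* 𝒪)
    (Sg : Finset ℕ) (hpS : p ∈ Sg) (a : ℕ → 𝒪) (ρ : GaloisRepAdic 𝒪)
    (hrel : FrobRelation ρ Sg a) (hdens : Density Sg)
    (hns : ∃ σ₀ : GQ, ¬ DetLemma.End.IsScalar (ρ.ρ σ₀)) (σ : GQ) :
    LinearMap.det (ρ.ρ σ) = Cyclotomic.cycChar p ι σ := by
  classical
  let b := Module.finBasisOfFinrankEq 𝒪 ρ.V ρ.finrank_eq
  have hεc := Cyclotomic.cycChar_continuous p ι (maximalIdeal 𝒪) hp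
  choose Lε hLε hε using hεc
  choose Lρ hLρ hρ using ρ.isAdicContinuous
  refine DetLemma.End.det_eq_of_density b (maximalIdeal 𝒪) separated ρ.ρ
    (Cyclotomic.cycChar p ι) (frobSet Sg) ?_
    (fun n => {u : GQ | ∀ x ∈ Lρ n ⊔ Lε n, u x = x}) ?_ ?_ ?_ hns σ
  · rintro τ ⟨ℓ, hℓ, hℓS, A, hA, hτ⟩ hτns
    have hℓp : ℓ ≠ p := fun h => hℓS (h ▸ hpS)
    rw [Cyclotomic.cycChar_isFrobeniusAt p ι hℓ hℓp A hA τ hτ]
    exact DetLemma.End.det_of_relation b (ρ.ρ τ) (a ℓ) ℓ (hrel ℓ hℓ hℓS A hA τ hτ) hτns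
  · intro n u hu v
    exact hρ n u (fun x hx => hu x ((le_sup_left : Lρ n ≤ Lρ n ⊔ Lε n) hx)) v
  · intro n u hu
    exact hε n u (fun x hx => hu x ((le_sup_right : Lε n ≤ Lρ n ⊔ Lε n) hx))
  · intro n g
    haveI := hLρ n
    haveI := hLε n
    obtain ⟨ℓ, hℓ, hℓS, A, τ, k, j, hA, hτ, h1, h2⟩ :=
      hdens (Lρ n ⊔ Lε n) (IntermediateField.finiteDimensional_sup _ _) g
    refine ⟨τ, ⟨ℓ, hℓ, hℓS, A, hA, hτ⟩, k, j, (g ^ k)⁻¹ * τ, ?_, ((g ^ k) ^ j)⁻¹ * g, ?_, ?_, ?_⟩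
    · intro x hx
      exact inv_mul_apply_eq _ _ x (h1 x hx)
    · intro x hx
      exact inv_mul_apply_eq _ _ x (h2 x hx).symm
    · rw [mul_inv_cancel_left]
    · rw [mul_inv_cancel_left]

/-- **(E), final form.**  From the Frobenius quadratic relation (and density) to a representation
with the right characteristic polynomials at all Frobenius lifts. -/
theorem exists_rep_charpoly (hp : (p : 𝒪) ∈ maximalIdeal 𝒪)
    (Sg : Finset ℕ) (hpS : p ∈ Sg) (Pu : ℕ → Prop) (hPu : ∀ q, Pu q → q ≠ p) (a : ℕ → 𝒪)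
    (ρ : GaloisRepAdic 𝒪) (hrel : FrobRelation ρ Sg a)
    (hunr : ∀ q : ℕ, q.Prime → Pu q → ρ.IsUnramifiedAt q) (hdens : Density Sg) :
    ∃ ρ' : GaloisRepAdic 𝒪, FrobCharpoly ρ' Sg a ∧
      ∀ q : ℕ, q.Prime → Pu q → ρ'.IsUnramifiedAt q := by
  classical
  obtain ⟨ι⟩ := Cyclotomic.exists_ringHom p (maximalIdeal 𝒪) hp
  let b := Module.finBasisOfFinrankEq 𝒪 ρ.V ρ.finrank_eq
  by_cases hsc : ∀ σ : GQ, DetLemma.End.IsScalar (ρ.ρ σ)
  · -- the scalar-valued case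
    choose θf hθf using hsc
    have inj : ∀ {c c' : 𝒪}, c • (1 : Module.End 𝒪 ρ.V) = c' • (1 : Module.End 𝒪 ρ.V) → c = c' :=
      fun h => smul_one_injective ρ.V b h
    let θ : GQ →* 𝒪 :=
      { toFun := θf
        map_one' := inj (by rw [← hθf 1, map_one, one_smul])
        map_mul' := fun σ τ => inj (by
          rw [← hθf (σ * τ), map_mul, hθf σ, hθf τ, smul_mul_smul_comm, mul_one]) }
    have hθ : ∀ σ, ρ.ρ σ = θ σ • (1 : Module.End 𝒪 ρ.V) := hθf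
    have hθc : CharSum.IsAdicContinuousChar 𝒪 θ := by
      intro n
      obtain ⟨L, hL, h⟩ := ρ.isAdicContinuous n
      refine ⟨L, hL, fun σ hσ => ?_⟩
      have h1 := DetLemma.End.repr_mem_of_mem_smul_top b _ _ (h σ hσ (b 0)) 0
      rw [hθ σ] at h1
      simpa [sub_mul] using h1
    have hεc : CharSum.IsAdicContinuousChar 𝒪 (Cyclotomic.cycChar p ι) :=
      Cyclotomic.cycChar_continuous p ι (maximalIdeal 𝒪) hp
    have h2c : CharSum.IsAdicContinuousChar 𝒪 (Cyclotomic.cycChar p ι * CharSum.invChar θ) :=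
      hεc.mul hθc.inv
    refine ⟨CharSum.ofChars θ (Cyclotomic.cycChar p ι * CharSum.invChar θ) hθc h2c, ?_, ?_⟩
    · intro ℓ hℓ hℓS A hA τ hτ
      have hℓp : ℓ ≠ p := fun h => hℓS (h ▸ hpS)
      have hετ := Cyclotomic.cycChar_isFrobeniusAt p ι hℓ hℓp A hA τ hτ
      have hr := hrel ℓ hℓ hℓS A hA τ hτ
      rw [hθ τ, smul_mul_smul_comm, mul_one, smul_smul, ← sub_smul, ← add_smul] at hr
      have hr' : θ τ * θ τ - a ℓ * θ τ + (ℓ : 𝒪) = 0 :=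
        inj (by rw [hr, zero_smul])
      have hu : CharSum.invChar θ τ * θ τ = 1 := CharSum.invChar_mul_self θ τ
      rw [CharSum.ofChars_charpoly, MonoidHom.mul_apply, hετ]
      have e1 : θ τ + (ℓ : 𝒪) * CharSum.invChar θ τ = a ℓ := by
        linear_combination (CharSum.invChar θ τ) * hr' + (a ℓ - θ τ) * hu
      have e2 : θ τ * ((ℓ : 𝒪) * CharSum.invChar θ τ) = (ℓ : 𝒪) := by
        linear_combination (ℓ : 𝒪) * hu
      rw [e1, e2]
    · intro q hq hPq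
      have hqp : q ≠ p := hPu q hPq
      have hθ1 : ∀ P : ValuationSubring Qbar, P.LiesOverPrime q →
          ∀ σ ∈ P.inertiaSubgroupIn ℚ, θ σ = 1 := by
        intro P hP σ hσ
        have := hunr q hq hPq P hP σ hσ
        rw [hθ σ] at this
        exact inj (by rw [this, one_smul])
      refine CharSum.ofChars_isUnramifiedAt θ _ hθc h2c q hθ1 ?_
      intro P hP σ hσ
      rw [MonoidHom.mul_apply, Cyclotomic.cycChar_inertia p ι hq hqp P hP σ hσ, one_mul,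
        CharSum.invChar_apply]
      exact hθ1 P hP σ⁻¹ (inv_mem hσ)
  · -- the non-scalar case
    push Not at hsc
    refine ⟨ρ, ?_, hunr⟩
    intro ℓ hℓ hℓS A hA τ hτ
    have hℓp : ℓ ≠ p := fun h => hℓS (h ▸ hpS)
    have hdet : LinearMap.det (ρ.ρ τ) = (ℓ : 𝒪) := by
      rw [det_eq_cycChar p hp ι Sg hpS a ρ hrel hdens hsc τ,
        Cyclotomic.cycChar_isFrobeniusAt p ι hℓ hℓp A hA τ hτ]
    exact DetLemma.End.charpoly_of_relation_of_det b (ρ.ρ τ) (a ℓ) ℓ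
      (hrel ℓ hℓ hℓS A hA τ hτ) hdet (Nat.cast_ne_zero.2 hℓ.ne_zero)

end Main

end Fermat.Agent.S30.Algebra.DetGalois
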