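import Mathlib
import Fermat.Prelude.Thm_IsAdicComplete_of_module_finite
import Fermat.Prelude.Thm_IsLocalRing_isAdicComplete_of_module_finite

/-!
# PROJECT J, slice J-5-O: finite extensions of complete discrete valuation rings

`A` a complete discrete valuation ring with finite residue field, `K` its fraction field, `L / K` a
finite separable extension, `C` the integral closure of `A` in `L`.  Then `C` is again a complete
discrete valuation ring with finite residue field, finite over `A`, and `A → C` is an injective
local homomorphism.  This is the ring `𝒪''` of statement S30.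

* `exists_idempotent_pow` : in a finite monoid every element has an idempotent power `x ^ n`,
  `0 < n`.
* `exists_idempotent_lift` : idempotents lift along `R → R ⧸ I` for `R` an `I`-adically complete
  ring.
* `isLocalRing_of_isAdicComplete_of_finite` : a domain which is `I`-adically complete with
  `R ⧸ I` finite is local.
* `isLocalRing`, `isDiscreteValuationRing`, `isAdicComplete`, `finite_residueField`,
  `charZero`, `moduleFinite`, `isLocalHom`, `algebraMap_injective` : the properties of `C`.
* `exists_completeDVR_ext` : the bundle, in the binder order of S30.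
-/

set_option autoImplicit false
set_option linter.unusedSectionVars false
set_option linter.style.haveILetI false

namespace Fermat.Agent.S30.Algebra.CompleteDVRExt

open IsLocalRing Polynomial

/-! ### Idempotents -/

/-- In a finite monoid every element has an idempotent power with positive exponent. -/
theorem exists_idempotent_pow {M : Type*} [Monoid M] [Finite M] (x : M) :
    ∃ n : ℕ, 0 < n ∧ x ^ n * x ^ n = x ^ n := by
  obtain ⟨a, b, hab, h⟩ : ∃ a b : ℕ, a < b ∧ x ^ a = x ^ b := by
    have hni : ¬ Function.Injective (fun n : ℕ => x ^ n) := not_injective_infinite_finite _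
    obtain ⟨a, b, h, hne⟩ := Function.not_injective_iff.1 hni
    rcases lt_or_gt_of_ne hne with h1 | h1
    · exact ⟨a, b, h1, h⟩
    · exact ⟨b, a, h1, h.symm⟩
  obtain ⟨d, rfl⟩ : ∃ d, b = a + d := ⟨b - a, by omega⟩
  have hd : 0 < d := by omega
  have hper : ∀ n, a ≤ n → x ^ (n + d) = x ^ n := by
    intro n hn
    obtain ⟨c, rfl⟩ : ∃ c, n = a + c := ⟨n - a, by omega⟩
    rw [show a + c + d = (a + d) + c by ring, pow_add, ← h, ← pow_add]
  have hper' : ∀ k n, a ≤ n → x ^ (n + k * d) = x ^ n := by
    intro k
    induction k with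
    | zero => intro n _; simp
    | succ k ih =>
      intro n hn
      rw [show n + (k + 1) * d = (n + k * d) + d by ring, hper _ (by omega), ih n hn]
  refine ⟨(a + 1) * d, Nat.mul_pos (Nat.succ_pos a) hd, ?_⟩
  rw [← pow_add]
  refine hper' (a + 1) _ ?_
  calc a ≤ (a + 1) * 1 := by omega
    _ ≤ (a + 1) * d := Nat.mul_le_mul_left _ hd

/-- Idempotents lift modulo an ideal for which the ring is adically complete. -/
theorem exists_idempotent_lift {R : Type*} [CommRing R] (I : Ideal R) [IsAdicComplete I R]
    (a₀ : R) (h : a₀ * a₀ - a₀ ∈ I) : ∃ e : R, e * e = e ∧ e - a₀ ∈ I := by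
  have hH : HenselianRing R I := inferInstance
  have hmonic : (X ^ 2 - X : R[X]).Monic := by
    nontriviality R
    apply Polynomial.monic_X_pow_sub
    rw [Polynomial.degree_X]
    exact_mod_cast (by norm_num : (1 : ℕ) < 2)
  have hev : (X ^ 2 - X : R[X]).eval a₀ ∈ I := by
    simpa [pow_two] using h
  have hder : IsUnit (Ideal.Quotient.mk I ((X ^ 2 - X : R[X]).derivative.eval a₀)) := by
    have h1 : (X ^ 2 - X : R[X]).derivative.eval a₀ = 2 * a₀ - 1 := by
      simp
      ring
    rw [h1]
    refine IsUnit.of_mul_eq_one (Ideal.Quotient.mk I (2 * a₀ - 1)) ?_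
    rw [← map_mul, ← map_one (Ideal.Quotient.mk I), Ideal.Quotient.eq]
    have : (2 * a₀ - 1) * (2 * a₀ - 1) - 1 = 4 * (a₀ * a₀ - a₀) := by ring
    rw [this]
    exact I.mul_mem_left _ h
  obtain ⟨e, he, hea⟩ := hH.is_henselian _ hmonic a₀ hev hder
  refine ⟨e, ?_, hea⟩
  have : e ^ 2 - e = 0 := by simpa [Polynomial.IsRoot] using he
  rw [← sub_eq_zero, ← this]; ring

/-- A domain which is `I`-adically complete with `R ⧸ I` finite is a local ring. -/
theorem isLocalRing_of_isAdicComplete_of_finite {R : Type*} [CommRing R] [IsDomain R]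
    (I : Ideal R) [IsAdicComplete I R] [Finite (R ⧸ I)] : IsLocalRing R := by
  have hle : ∀ m : Ideal R, m.IsMaximal → I ≤ m := fun m hm =>
    le_trans (IsAdicComplete.le_jacobson_bot I) (sInf_le ⟨bot_le, hm⟩)
  have key : ∀ m₁ m₂ : Ideal R, m₁.IsMaximal → m₂.IsMaximal → m₁ ≤ m₂ := by
    intro m₁ m₂ h₁ h₂ x hx
    by_contra hx2
    obtain ⟨n, hn, hid⟩ := exists_idempotent_pow (Ideal.Quotient.mk I x)
    have h0 : (x ^ n) * (x ^ n) - x ^ n ∈ I := by
      rw [← Ideal.Quotient.eq_zero_iff_mem, map_sub, map_mul, map_pow, hid, sub_self]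
    obtain ⟨e, he, hea⟩ := exists_idempotent_lift I (x ^ n) h0
    have he' : e = 0 ∨ e = 1 := by
      have : e * (e - 1) = 0 := by rw [mul_sub, he, mul_one, sub_self]
      rcases mul_eq_zero.1 this with h | h
      · exact Or.inl h
      · exact Or.inr (sub_eq_zero.1 h)
    rcases he' with rfl | rfl
    · -- `x ^ n ∈ I ≤ m₂`
      have : x ^ n ∈ m₂ := by
        have := hle m₂ h₂ hea
        rw [zero_sub] at this
        simpa using m₂.neg_mem this
      exact hx2 (h₂.isPrime.mem_of_pow_mem n this)
    · -- `1 - x ^ n ∈ I ≤ m₁`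
      have h1 : (1 : R) - x ^ n ∈ m₁ := hle m₁ h₁ hea
      have h2 : x ^ n ∈ m₁ := m₁.pow_mem_of_mem hx n hn
      have : (1 : R) ∈ m₁ := by
        have := m₁.add_mem h1 h2
        simpa using this
      exact h₁.ne_top ((Ideal.eq_top_iff_one m₁).2 this)
  obtain ⟨m, hm⟩ := Ideal.exists_maximal R
  exact IsLocalRing.of_unique_max_ideal
    ⟨m, hm, fun m' hm' => le_antisymm (key m' m hm' hm) (key m m' hm hm')⟩

/-! ### The integral closure of a complete discrete valuation ring -/

section Ext

variable (A : Type*) [CommRing A] [IsDomain A] [IsDiscreteValuationRing A]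
  [IsAdicComplete (maximalIdeal A) A] [Finite (ResidueField A)]
  (K : Type*) [Field K] [Algebra A K] [IsFractionRing A K]
  (L : Type*) [Field L] [Algebra K L] [Algebra A L] [IsScalarTower A K L] [FiniteDimensional K L]
  [Algebra.IsSeparable K L]
  (C : Type*) [CommRing C] [IsDomain C] [Algebra C L] [Algebra A C] [IsScalarTower A C L]
  [IsIntegralClosure C A L]

include A K L

theorem moduleFinite : Module.Finite A C := IsIntegralClosure.finite A K L C

theorem algebraMap_injective : Function.Injective (algebraMap A C) := by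
  have h1 : Function.Injective (algebraMap A L) := by
    rw [IsScalarTower.algebraMap_eq A K L]
    exact (algebraMap K L).injective.comp (IsFractionRing.injective A K)
  rw [IsScalarTower.algebraMap_eq A C L] at h1
  exact Function.Injective.of_comp h1

theorem isLocalHom : IsLocalHom (algebraMap A C) := by
  haveI : Algebra.IsIntegral A C := IsIntegralClosure.isIntegral_algebra A L
  haveI : FaithfulSMul A C := (faithfulSMul_iff_algebraMap_injective A C).2
    (algebraMap_injective A K L C)
  infer_instance

theorem finite_quotient_map :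
    Finite (C ⧸ (maximalIdeal A).map (algebraMap A C)) := by
  haveI : Module.Finite A C := moduleFinite A K L C
  haveI : Finite (A ⧸ maximalIdeal A) := ‹Finite (ResidueField A)›
  have h1 : Finite (C ⧸ (maximalIdeal A • (⊤ : Submodule A C))) :=
    Submodule.finite_quotient_smul (maximalIdeal A) Module.Finite.fg_top
  rw [Ideal.smul_top_eq_map] at h1
  exact Finite.of_equiv _
    (Submodule.Quotient.restrictScalarsEquiv A
      ((maximalIdeal A).map (algebraMap A C))).toEquiv

theorem isAdicComplete_map :
    IsAdicComplete ((maximalIdeal A).map (algebraMap A C)) C := by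
  haveI : Module.Finite A C := moduleFinite A K L C
  rw [IsAdicComplete.map_algebraMap_iff]
  exact IsAdicComplete.of_module_finite (maximalIdeal A) C

theorem isLocalRing : IsLocalRing C := by
  haveI := isAdicComplete_map A K L C
  haveI := finite_quotient_map A K L C
  exact isLocalRing_of_isAdicComplete_of_finite ((maximalIdeal A).map (algebraMap A C))

theorem isDedekindDomain : IsDedekindDomain C := IsIntegralClosure.isDedekindDomain A K L C

theorem not_isField : ¬ IsField C := by
  haveI := isLocalHom A K L C
  intro hF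
  obtain ⟨π, hπ⟩ := IsDiscreteValuationRing.exists_irreducible A
  have h0 : algebraMap A C π ≠ 0 := by
    rw [Ne, ← map_zero (algebraMap A C)]
    exact fun h => hπ.ne_zero (algebraMap_injective A K L C h)
  have hu : IsUnit (algebraMap A C π) := by
    obtain ⟨b, hb⟩ := hF.mul_inv_cancel h0
    exact IsUnit.of_mul_eq_one b hb
  exact hπ.not_isUnit (isUnit_of_map_unit (algebraMap A C) π hu)

theorem isDiscreteValuationRing : IsDiscreteValuationRing C := by
  haveI := isLocalRing A K L C
  have hD : IsDedekindDomain C := isDedekindDomain A K L C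
  haveI : IsNoetherianRing C := hD.toIsNoetherian
  exact ((IsDiscreteValuationRing.TFAE C (not_isField A K L C)).out 0 2).2 hD

theorem isAdicComplete [IsLocalRing C] : IsAdicComplete (maximalIdeal C) C := by
  haveI := moduleFinite A K L C
  haveI := isLocalHom A K L C
  exact IsLocalRing.isAdicComplete_of_module_finite (𝒪 := A) (T := C)

theorem finite_residueField [IsLocalRing C] : Finite (ResidueField C) := by
  haveI := finite_quotient_map A K L C
  haveI := isLocalHom A K L C
  have hle : (maximalIdeal A).map (algebraMap A C) ≤ maximalIdeal C := by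
    rw [Ideal.map_le_iff_le_comap]
    intro a ha
    exact Ideal.mem_comap.2 (map_nonunit (algebraMap A C) a ha)
  exact Finite.of_surjective (Ideal.Quotient.factor hle) (Ideal.Quotient.factor_surjective hle)

theorem charZero [CharZero A] : CharZero C :=
  charZero_of_injective_algebraMap (algebraMap_injective A K L C)

theorem isFractionRing : IsFractionRing C L :=
  IsIntegralClosure.isFractionRing_of_finite_extension A K L C

end Ext

/-- **J-5-O.**  The bundle in the binder order of S30: for a complete discrete valuation ring `𝒪'`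
of characteristic zero with finite residue field and a finite extension `L` of its fraction field
`K`, the integral closure `𝒪''` of `𝒪'` in `L` carries all the structure S30 asks for. -/
theorem exists_completeDVR_ext (𝒪' : Type) [CommRing 𝒪'] [IsDomain 𝒪']
    [IsDiscreteValuationRing 𝒪'] [IsAdicComplete (maximalIdeal 𝒪') 𝒪']
    [Finite (ResidueField 𝒪')] [CharZero 𝒪']
    (K : Type*) [Field K] [Algebra 𝒪' K] [IsFractionRing 𝒪' K]
    (L : Type) [Field L] [Algebra K L] [Algebra 𝒪' L] [IsScalarTower 𝒪' K L]
    [FiniteDimensional K L] :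
    ∃ (𝒪'' : Type) (_ : CommRing 𝒪'') (_ : IsDomain 𝒪'') (_ : IsDiscreteValuationRing 𝒪'')
      (_ : IsAdicComplete (maximalIdeal 𝒪'') 𝒪'')
      (_ : Finite (ResidueField 𝒪'')) (_ : CharZero 𝒪'')
      (_ : Algebra 𝒪' 𝒪'') (_ : Module.Finite 𝒪' 𝒪'') (_ : IsLocalHom (algebraMap 𝒪' 𝒪''))
      (_ : Algebra 𝒪'' L) (_ : IsScalarTower 𝒪' 𝒪'' L) (_ : IsFractionRing 𝒪'' L),
      Function.Injective (algebraMap 𝒪' 𝒪'') ∧
      ∀ x : L, IsIntegral 𝒪' x → ∃ y : 𝒪'', algebraMap 𝒪'' L y = x := by
  haveI : CharZero K := charZero_of_injective_algebraMap (IsFractionRing.injective 𝒪' K)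
  haveI : Algebra.IsSeparable K L := inferInstance
  let C := integralClosure 𝒪' L
  haveI hDVR : IsDiscreteValuationRing C := isDiscreteValuationRing 𝒪' K L C
  refine ⟨C, inferInstance, inferInstance, hDVR, isAdicComplete 𝒪' K L C,
    finite_residueField 𝒪' K L C, charZero 𝒪' K L C, inferInstance, moduleFinite 𝒪' K L C,
    isLocalHom 𝒪' K L C, inferInstance, inferInstance, isFractionRing 𝒪' K L C,
    algebraMap_injective 𝒪' K L C, fun x hx => ⟨⟨x, hx⟩, rfl⟩⟩

end Fermat.Agent.S30.Algebra.CompleteDVRExt
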